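import Fermat.Agent.Ribet.H579.RedDiv
import Fermat.Agent.Ribet.H523.Q3Spec

/-!
# Row 37, WALL-q, (Q3) leaf KUM-RED (helper579)

`kumRed : H523.Q3.KumRedStatement` VERBATIM, from `redDiv` (`Ribet/H579/RedDiv.lean`): a Kummer
generator `f` of `z ∈ J₀(M)` (`div f = m·D`, `z = [D]`) with reduction `r` gives `r ∈ k(X₀(M))`
with `div r = m·r_*(D)` and `[r_* D] = reductionModL A M z`.
-/

set_option autoImplicit false
set_option linter.style.haveILetI false
set_option linter.unusedSectionVars false
set_option synthInstance.maxHeartbeats 400000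
set_option maxHeartbeats 1000000

noncomputable section

namespace Fermat.Agent.Ribet.H579

open AlgebraicCurve ModularCurve HahnSeries
open Fermat.Agent.S24 Fermat.Agent.A2.H708 Fermat.Agent.A2.H528
open Fermat.Agent.Ribet.H884

/-- **KUM-RED**, elementwise (any modulus `m`, no hypothesis on the residue characteristic beyond
`ReductionInputsModL A M`). -/
theorem kumRed_of_inputs {M : ℕ} [NeZero M] {A : ValuationSubring Kbar}
    (hR : ReductionInputsModL A M) {m : ℕ} {z : JZero M} {f : FF M}
    {r : LaurentSeries (kA A)} (hfK : IsKummerGen M m f z) (hr : IsRedInf M A f r) :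
    ∃ (g : modularFunctionFieldFullC (kA A) M)
      (E : Divisor.degZero (K := kA A) (F := modularFunctionFieldFullC (kA A) M)),
      (g : LaurentSeries (kA A)) = r ∧ g ≠ 0 ∧ Pic0.mk E = reductionModL A M z ∧
      ∀ Q : Place (kA A) (modularFunctionFieldFullC (kA A) M),
        Q.ord g = (m : ℤ) * (E : Divisor (kA A) (modularFunctionFieldFullC (kA A) M)) Q := by
  obtain ⟨hf0, D, rfl, hD⟩ := hfK
  obtain ⟨g, hg, hg0, hgE⟩ := redDiv hR hr ((m : ℤ) • (D : Divisor Kbar (FF M)))
    (fun P => by rw [Finsupp.smul_apply, smul_eq_mul, hD])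
  refine ⟨g, reductionDegZeroAlong (placeReductionModL hR)
    (isPlaceReductionModL_placeReductionModL hR).1 D, hg, hg0, (reductionModL_mk hR D).symm,
    fun Q => ?_⟩
  rw [← hgE Q, Finsupp.mapDomain_smul, Finsupp.smul_apply, smul_eq_mul,
    coe_reductionDegZeroAlong]

/-- **KUM-RED** (`H523.Q3.KumRedStatement`, verbatim). -/
theorem kumRed : H523.Q3.KumRedStatement := by
  intro q M m _ _ _ A _ hR z f r hfK hr
  obtain ⟨g, E, hg, -, hE, hord⟩ := kumRed_of_inputs hR hfK hr
  exact ⟨g, E, hg, hE, hord⟩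

end Fermat.Agent.Ribet.H579

end
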