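import Fermat.Agent.Ribet.H997.RedBasic
import Fermat.Agent.Ribet.H944.I2Spec
import Fermat.Agent.Lib.RR.H804.Modular
import Fermat.Agent.Lib.RR.H383.FF1OfFinite
import Fermat.Agent.Lib.RR.Ord
import Fermat.Prelude.Def_ModularCurve_ReductionModL

/-!
# Row 37, WALL-q, (Q3) TORS-LIFT core: RED-DIV (helper579)

The reduction of FUNCTIONS (`H884.IsRedInf`: reduction of `q`-expansions, Gauss norm) and the
reduction of PLACES (`placeReductionModL`, the map behind `reductionModL`, rows S18 / S37) are
compatible: at a level `N` with `ReductionInputsModL A N`,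

* `redDiv` : if `r` is a reduction of `f ∈ FF N`, then `r ∈ k(X₀(N))` and
  `div r = (placeReductionModL hR)_* (div f)`;
* `redDiv_kummer` : if `f` is a Kummer generator of `z ∈ J₀(N)` (`div f = m·D`, `z = [D]`) with
  reduction `r`, then `r` is a Kummer generator of `reductionModL A N z` (`div r = m·D̄`,
  `reductionModL A N z = [D̄]`).

No hypothesis on the residue characteristic beyond `ReductionInputsModL A N`.
-/

set_option autoImplicit false
set_option linter.style.haveILetI false
set_option linter.unusedSectionVars false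
set_option synthInstance.maxHeartbeats 400000
set_option maxHeartbeats 1000000

noncomputable section

namespace Fermat.Agent.Ribet.H579

open AlgebraicCurve ModularCurve HahnSeries
open Fermat.Agent.S24 Fermat.Agent.A2.H708 Fermat.Agent.A2.H528
open Fermat.Agent.Ribet.H884

section RedDiv

variable {N : ℕ} [NeZero N] {A : ValuationSubring Kbar}

/-- The predicate propagated along the closure of the integral principal divisors. -/
def RedDivGood (hR : ReductionInputsModL A N) (E : Divisor Kbar (FF N)) : Prop :=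
  ∃ (f : FF N) (g : modularFunctionFieldFullC (kA A) N), g ≠ 0 ∧
    IsRedInf N A f (g : LaurentSeries (kA A)) ∧ (∀ P, E P = P.ord f) ∧
    ∀ Q, Finsupp.mapDomain (placeReductionModL hR) E Q = Q.ord g

theorem redDivGood_of_mem_closure (hR : ReductionInputsModL A N) {E : Divisor Kbar (FF N)}
    (hE : E ∈ AddSubgroup.closure (integralPrincipalDivisors A (IsLocalRing.residue A) N)) :
    RedDivGood hR E := by
  induction hE using AddSubgroup.closure_induction with
  | mem E hE =>
    obtain ⟨y, hy, hyk, hne, hEy⟩ := hE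
    refine ⟨⟨coeffMap A.subtype y, hy⟩, ⟨coeffMap (IsLocalRing.residue A) y, hyk⟩,
      fun h => hne (congrArg Subtype.val h), ?_, hEy, fun Q => ?_⟩
    · refine ⟨1, y, 1, one_ne_zero, hne, ?_, ?_, ?_⟩
      · rw [map_one]; exact one_ne_zero
      · rw [map_one, mul_one, cst_one, one_mul]
      · rw [map_one, mul_one]
    · exact (isPlaceReductionModL_placeReductionModL hR).2 y hy hyk hne E hEy Q
  | zero =>
    refine ⟨1, 1, one_ne_zero, H944.I2.isRedInf_one N A, fun P => ?_, fun Q => ?_⟩
    · rw [Place.ord_one]; rfl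
    · rw [Finsupp.mapDomain_zero, Place.ord_one]; rfl
  | add E E' _ _ hE hE' =>
    obtain ⟨f, g, hg, hfg, hEf, hEg⟩ := hE
    obtain ⟨f', g', hg', hfg', hEf', hEg'⟩ := hE'
    have hf0 : f ≠ 0 := H997.ne_zero_of_isRedInf hfg
    have hf0' : f' ≠ 0 := H997.ne_zero_of_isRedInf hfg'
    refine ⟨f * f', g * g', mul_ne_zero hg hg', H944.I2.isRedInf_mul N A hfg hfg',
      fun P => ?_, fun Q => ?_⟩
    · rw [Place.ord_mul P hf0 hf0', Finsupp.add_apply, hEf, hEf']
    · rw [Finsupp.mapDomain_add, Finsupp.add_apply, hEg, hEg', Place.ord_mul Q hg hg']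
  | neg E _ hE =>
    obtain ⟨f, g, hg, hfg, hEf, hEg⟩ := hE
    refine ⟨f⁻¹, g⁻¹, inv_ne_zero hg, H944.I2.isRedInf_inv N A hfg, fun P => ?_, fun Q => ?_⟩
    · rw [Place.ord_inv, Finsupp.neg_apply, hEf]
    · rw [Place.ord_inv, ← hEg, ← Finsupp.mapDomain.addMonoidHom_apply, map_neg,
        Finsupp.mapDomain.addMonoidHom_apply, Finsupp.neg_apply]

/-- The constants of `k(X₀(N))` as series. -/
theorem coe_algebraMap_fullC {k : Type*} [Field k] (M : ℕ) (c : k) :
    ((algebraMap k (modularFunctionFieldFullC k M) c : modularFunctionFieldFullC k M) :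
      LaurentSeries k) = HahnSeries.C c := by
  have h0 : ((algebraMap k (modularFunctionFieldFullC k M) c : modularFunctionFieldFullC k M) :
      LaurentSeries k) = algebraMap k (LaurentSeries k) c := rfl
  have h1 : algebraMap k (PowerSeries k) c = PowerSeries.C c := by simp
  rw [h0, HahnSeries.algebraMap_apply', h1, HahnSeries.ofPowerSeries_C]

/-- Two functions of level `N` with the same divisor differ by a nonzero constant. -/
theorem exists_const_of_ord_eq {f f' : FF N} (hf : f ≠ 0) (hf' : f' ≠ 0)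
    (h : ∀ P : Place Kbar (FF N), P.ord f = P.ord f') :
    ∃ c : Kbar, c ≠ 0 ∧ f = algebraMap Kbar (FF N) c * f' := by
  haveI : Lib.RR.FF1 Kbar (FF N) := Lib.RR.H804.ff1_modular (N := N)
  obtain ⟨x, hx, hfin⟩ := (inferInstance : Lib.RR.FF1 Kbar (FF N)).exists_finite
  haveI := hfin
  have h0 : ∀ P : Place Kbar (FF N), P.ord (f * f'⁻¹) = 0 := fun P => by
    rw [Place.ord_mul P hf (inv_ne_zero hf'), Place.ord_inv, h P]
    ring
  obtain ⟨c, hc⟩ := Lib.RR.H383.eq_algebraMap_of_forall_ord_eq_zero hx h0
  refine ⟨c, ?_, ?_⟩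
  · rintro rfl
    rw [map_zero] at hc
    exact mul_ne_zero hf (inv_ne_zero hf') hc.symm
  · rw [hc]
    field_simp

/-- **RED-DIV**: a reduction `r` of `f ∈ FF N` lies in `k(X₀(N))`, and its divisor is the image
of the divisor of `f` under the reduction of places. -/
theorem redDiv (hR : ReductionInputsModL A N) {f : FF N} {r : LaurentSeries (kA A)}
    (hf : IsRedInf N A f r) (D : Divisor Kbar (FF N)) (hD : ∀ P, D P = P.ord f) :
    ∃ g : modularFunctionFieldFullC (kA A) N, (g : LaurentSeries (kA A)) = r ∧ g ≠ 0 ∧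
      ∀ Q, Finsupp.mapDomain (placeReductionModL hR) D Q = Q.ord g := by
  have hf0 : f ≠ 0 := H997.ne_zero_of_isRedInf hf
  have hprin : D ∈ Divisor.principal (K := Kbar) (F := FF N) :=
    Divisor.mem_principal.mpr ⟨f, hf0, hD⟩
  have hcl := hR.choose_spec.2 hprin
  obtain ⟨f', g', hg', hfg', hDf', hDg'⟩ := redDivGood_of_mem_closure hR hcl
  have hf0' : f' ≠ 0 := H997.ne_zero_of_isRedInf hfg'
  obtain ⟨c, hc, hfc⟩ := exists_const_of_ord_eq hf0 hf0' (fun P => by rw [← hD, hDf'])
  have h1 : IsRedInf N A f (1 * (g' : LaurentSeries (kA A))) := by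
    rw [hfc]
    exact H944.I2.isRedInf_mul N A (H944.I2.isRedInf_const N A hc) hfg'
  obtain ⟨u, hu, hru⟩ := H997.isRedInf_unique h1 hf
  rw [one_mul] at hru
  refine ⟨algebraMap (kA A) (modularFunctionFieldFullC (kA A) N) u * g', ?_, ?_, fun Q => ?_⟩
  · rw [hru, IntermediateField.coe_mul, coe_algebraMap_fullC]
  · refine mul_ne_zero ?_ hg'
    intro h0
    apply hu
    exact (algebraMap (kA A) (modularFunctionFieldFullC (kA A) N)).injective
      (by rw [h0, map_zero])
  · have hu0 : algebraMap (kA A) (modularFunctionFieldFullC (kA A) N) u ≠ 0 := by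
      intro h0
      apply hu
      exact (algebraMap (kA A) (modularFunctionFieldFullC (kA A) N)).injective
        (by rw [h0, map_zero])
    rw [Place.ord_mul Q hu0 hg', Lib.RR.ord_algebraMap, zero_add]
    exact hDg' Q

end RedDiv

end Fermat.Agent.Ribet.H579

end
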